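import Fermat.Agent.S19.H979.LocalGlue
import Fermat.Agent.S37.Red.ModG
import Fermat.Agent.S37.H568.ValueGroup
import Fermat.Agent.S18.H516.CoreRes
import Fermat.Agent.S18.H383.FF1Modular
import Fermat.Agent.Lib.RR.H864.FF1Modular
import Fermat.Agent.S19.H439.InertiaLift
import Fermat.Agent.S17.H680.Cusp
import Fermat.Agent.S54.FrobExists

/-!
# A3 / GR (helper739): assembly of the `GoodRed` instance for `X₀(N)`

Target: `Fermat.Agent.S19.H979.GrStatement` (frozen by helper979).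

For a valuation ring `V ⊆ Q̄` above `ℓ ∤ N` we take

* `O   := S37.Red.modO hVG`  (fractions of integral `q`-series, helper40/helper940),
* `red := S37.Red.modρ hVG`  (coefficientwise reduction of fractions),
* `I   := inertiaImage N V`  (image under `arithmeticGalois` of `{σ | IsInertiaAt V σ}`),
* `hVG` from `S37.H568.valueGroupHyp_modular` and `S18.H516.coreData_residue`.

PROVED HERE (no holes): `res_*`, `algebraMap_mem`, `red_algebraMap`, `red_surjective`, `gauss`,
`ff1`, `ff1k`, `I_base`, `I_red`, `I_lift_const`, `I_fixed_place`, and the passage of `div_red`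
from integral series (Prelude `IsPlaceReductionModL`) to all of `O`.

OPEN LEAVES (exact Props below):
* `RedLeaf N V`    : a place map `r` with the Prelude's `IsPlaceReductionModL V N r`, commuting
                     with inertia;
* `GenusLeaf N V`  : `genusFF` of the generic and the special fibre agree;
* `OrthLeaf N V hVG` : the field `orthonormal` for `(modO, modρ, inertiaImage)`.

`grStatement_of_leaves` : the three leaves (for ONE `V` above each `ℓ`)  ⟹  `GrStatement`.
-/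

set_option autoImplicit false
set_option synthInstance.maxHeartbeats 400000

noncomputable section

namespace Fermat.Agent.A3.H739

open AlgebraicCurve ModularCurve HahnSeries IsLocalRing
open Fermat.Agent.S19 (GalQ IsInertiaAt GoodLevel)
open Fermat.Agent.S37.Red (Qb FN kA FNk ModVG modO modρ modFrac)

/-! ## The inertia group -/

section Inertia

variable (V : ValuationSubring Qb)

theorem zero_mem_nonunits_gr : (0 : Qb) ∈ V.nonunits := by
  rw [ValuationSubring.mem_nonunits_iff, map_zero]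
  exact zero_lt_one

theorem nonunits_le_gr {a : Qb} (ha : a ∈ V.nonunits) : a ∈ V := by
  rw [ValuationSubring.mem_nonunits_iff] at ha
  exact (V.valuation_le_one_iff a).mp ha.le

theorem add_mem_nonunits_gr {a b : Qb} (ha : a ∈ V.nonunits) (hb : b ∈ V.nonunits) :
    a + b ∈ V.nonunits := by
  rw [ValuationSubring.mem_nonunits_iff] at ha hb ⊢
  exact lt_of_le_of_lt (V.valuation.map_add a b) (max_lt ha hb)

theorem neg_mem_nonunits_gr {a : Qb} (ha : a ∈ V.nonunits) : -a ∈ V.nonunits := by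
  rw [ValuationSubring.mem_nonunits_iff] at ha ⊢
  rwa [Valuation.map_neg]

variable {V}

theorem inertia_map_mem {σ : GalQ} (hσ : IsInertiaAt V σ) {a : Qb} (ha : a ∈ V) :
    σ a ∈ V := by
  have h := V.add_mem _ _ (nonunits_le_gr V (hσ a ha)) ha
  simpa using h

theorem inertia_map_mem_nonunits {σ : GalQ} (hσ : IsInertiaAt V σ) {a : Qb}
    (ha : a ∈ V.nonunits) : σ a ∈ V.nonunits := by
  have h := add_mem_nonunits_gr V (hσ a (nonunits_le_gr V ha)) ha
  simpa using h

theorem inertia_symm_mem {σ : GalQ} (hσ : IsInertiaAt V σ) {a : Qb} (ha : a ∈ V) :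
    σ.symm a ∈ V := by
  by_contra hb
  have hb' : (σ.symm a)⁻¹ ∈ V.nonunits := by
    rw [ValuationSubring.mem_nonunits_iff]
    have h1 : ¬ V.valuation (σ.symm a) ≤ 1 := fun h => hb ((V.valuation_le_one_iff _).mp h)
    have h2 : 1 < V.valuation (σ.symm a) := not_le.mp h1
    rw [map_inv₀]
    exact inv_lt_one_of_one_lt₀ h2
  have h3 := inertia_map_mem_nonunits hσ hb'
  rw [map_inv₀, AlgEquiv.apply_symm_apply] at h3
  rw [ValuationSubring.mem_nonunits_iff, map_inv₀] at h3
  have h4 : V.valuation a ≤ 1 := (V.valuation_le_one_iff a).mpr ha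
  have ha0 : V.valuation a ≠ 0 := by
    intro h0
    rw [h0, inv_zero] at h3
    have hz : a = 0 := (V.valuation.zero_iff).mp h0
    apply hb
    rw [hz, map_zero]
    exact V.zero_mem
  have h5 : 1 ≤ (V.valuation a)⁻¹ := (one_le_inv₀ (zero_lt_iff.mpr ha0)).mpr h4
  exact absurd h3 (not_lt.mpr h5)

variable (V)

/-- the inertia group of `V` in `Gal(Q̄/Q)`, in the form used by `S19.IsInertiaAt` -/
def inertiaGroup : Subgroup GalQ where
  carrier := {σ | IsInertiaAt V σ}
  one_mem' := fun a _ => by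
    show (1 : GalQ) a - a ∈ V.nonunits
    rw [AlgEquiv.one_apply, sub_self]
    exact zero_mem_nonunits_gr V
  mul_mem' := fun {σ τ} hσ hτ a ha => by
    show (σ * τ) a - a ∈ V.nonunits
    have h1 : σ (τ a - a) ∈ V.nonunits := inertia_map_mem_nonunits hσ (hτ a ha)
    have h2 := add_mem_nonunits_gr V h1 (hσ a ha)
    rw [map_sub] at h2
    have e : σ (τ a) - σ a + (σ a - a) = (σ * τ) a - a := by
      rw [AlgEquiv.mul_apply]; ring
    rwa [e] at h2
  inv_mem' := fun {σ} hσ a ha => by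
    show σ⁻¹ a - a ∈ V.nonunits
    have hb : σ.symm a ∈ V := inertia_symm_mem hσ ha
    have h1 := neg_mem_nonunits_gr V (hσ (σ.symm a) hb)
    rw [AlgEquiv.apply_symm_apply, neg_sub] at h1
    exact h1

theorem mem_inertiaGroup {σ : GalQ} : σ ∈ inertiaGroup V ↔ IsInertiaAt V σ := Iff.rfl

/-- the image of the inertia group in the semilinear automorphisms of `Q̄(X₀(N))` -/
def inertiaImage (N : ℕ) : Subgroup (SemilinearAut Qb (FN N)) :=
  (inertiaGroup V).map (arithmeticGalois (modularFunctionFieldFull N))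

theorem mem_inertiaImage {N : ℕ} {g : SemilinearAut Qb (FN N)} :
    g ∈ inertiaImage V N ↔
      ∃ σ : GalQ, IsInertiaAt V σ ∧ arithmeticGalois (modularFunctionFieldFull N) σ = g :=
  Subgroup.mem_map

theorem arithmeticGalois_mem_inertiaImage (N : ℕ) {σ : GalQ} (hσ : IsInertiaAt V σ) :
    arithmeticGalois (modularFunctionFieldFull N) σ ∈ inertiaImage V N :=
  Subgroup.mem_map_of_mem _ hσ

end Inertia

/-! ## The datum `(modO, modρ)` -/

section Datum

open Fermat.Agent.S37.H940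

variable {N : ℕ} {V : ValuationSubring Qb}

theorem gr_res_eq_zero (a : V) : residue V a = 0 ↔ (a : Qb) ∈ V.nonunits := by
  rw [residue_eq_zero_iff, ValuationSubring.coe_mem_nonunits_iff]

theorem inv_mem_nonunits_of_notMem_gr {a : Qb} (ha : a ∉ V) : a⁻¹ ∈ V.nonunits := by
  rw [ValuationSubring.mem_nonunits_iff, map_inv₀]
  have h1 : ¬ V.valuation a ≤ 1 := fun h => ha ((V.valuation_le_one_iff _).mp h)
  exact inv_lt_one_of_one_lt₀ (not_le.mp h1)

/-- constants of `O` are the constants of `V` -/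
theorem gr_algebraMap_mem (hVG : ModVG N V) (a : Qb) :
    algebraMap Qb (FN N) a ∈ modO hVG ↔ a ∈ V := by
  constructor
  · intro h
    by_contra ha
    have hnu : (a⁻¹ : Qb) ∈ V.nonunits := inv_mem_nonunits_of_notMem_gr ha
    have hinv : a⁻¹ ∈ V := nonunits_le_gr V hnu
    have ha0 : a ≠ 0 := fun h0 => ha (h0 ▸ V.zero_mem)
    let u : modO hVG := ⟨algebraMap Qb (FN N) a, h⟩
    let w : modO hVG := ⟨algebraMap Qb (FN N) a⁻¹, (modFrac N V).ctx.A_mem ⟨a⁻¹, hinv⟩⟩
    have huw : u * w = 1 := by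
      apply Subtype.ext
      show algebraMap Qb (FN N) a * algebraMap Qb (FN N) a⁻¹ = 1
      rw [← map_mul, mul_inv_cancel₀ ha0, map_one]
    have hw : modρ hVG w = 0 := by
      have h1 : modρ hVG w = algebraMap (kA V) (FNk V N) (residue V ⟨a⁻¹, hinv⟩) :=
        (modFrac N V).ctx.ρ_A ⟨a⁻¹, hinv⟩
      rw [h1, (gr_res_eq_zero ⟨a⁻¹, hinv⟩).mpr hnu, map_zero]
    have h2 := congrArg (modρ hVG) huw
    rw [map_mul, hw, mul_zero, map_one] at h2
    exact zero_ne_one h2
  · intro ha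
    exact (modFrac N V).ctx.A_mem ⟨a, ha⟩

theorem gr_red_algebraMap (hVG : ModVG N V) (a : V)
    (h : algebraMap Qb (FN N) (a : Qb) ∈ modO hVG) :
    modρ hVG ⟨algebraMap Qb (FN N) (a : Qb), h⟩ = algebraMap (kA V) (FNk V N) (residue V a) :=
  (modFrac N V).ctx.ρ_A a

/-- Gauss: every nonzero function is a constant times a function of norm one -/
theorem gr_gauss (hVG : ModVG N V) (f : FN N) (hf : f ≠ 0) :
    ∃ a : Qb, a ≠ 0 ∧ ∃ h : algebraMap Qb (FN N) a * f ∈ modO hVG,
      modρ hVG ⟨algebraMap Qb (FN N) a * f, h⟩ ≠ 0 := by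
  obtain ⟨c, hc, y₁, y₂, h₁, h₂, hfy⟩ := hVG f hf
  let z₁ : (modFrac N V).O := y₁
  let z₂ : (modFrac N V).O := y₂
  have hz₁ : (modFrac N V).ρ₀ z₁ ≠ 0 := h₁
  have hz₂ : (modFrac N V).ρ₀ z₂ ≠ 0 := h₂
  have hfrac : (algebraMap Qb (FN N) c⁻¹ * f) * (z₂ : FN N) = (z₁ : FN N) := by
    have hfy' : f * (z₂ : FN N) = algebraMap Qb (FN N) c * (z₁ : FN N) := hfy
    rw [mul_assoc, hfy', ← mul_assoc, ← map_mul, inv_mul_cancel₀ hc, map_one, one_mul]
  have hmem : algebraMap Qb (FN N) c⁻¹ * f ∈ modO hVG := ⟨z₁, z₂, hz₂, hfrac⟩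
  refine ⟨c⁻¹, inv_ne_zero hc, hmem, ?_⟩
  have h3 : modρ hVG ⟨algebraMap Qb (FN N) c⁻¹ * f, hmem⟩ =
      (modFrac N V).ρ₀ z₁ / (modFrac N V).ρ₀ z₂ :=
    (modFrac N V).ρ_apply ⟨algebraMap Qb (FN N) c⁻¹ * f, hmem⟩ hz₂ hfrac
  rw [h3]
  exact div_ne_zero hz₁ hz₂

end Datum

/-! ## Inertia acts trivially on reductions -/

section InertiaRed

open Fermat.Agent.S37.H940

variable {N : ℕ} {V : ValuationSubring Qb}

/-- the restriction of an inertia element to `V` -/
def resV {σ : GalQ} (hσ : IsInertiaAt V σ) : V →+* V :=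
  ((σ : Qb →+* Qb).comp V.subtype).codRestrict V fun a => inertia_map_mem hσ a.2

theorem subtype_comp_resV {σ : GalQ} (hσ : IsInertiaAt V σ) :
    V.subtype.comp (resV hσ) = (σ : Qb →+* Qb).comp V.subtype :=
  RingHom.ext fun _ => rfl

theorem residue_comp_resV {σ : GalQ} (hσ : IsInertiaAt V σ) :
    (residue V).comp (resV hσ) = residue V := by
  refine RingHom.ext fun a => ?_
  show residue V (resV hσ a) = residue V a
  rw [← sub_eq_zero, ← map_sub, gr_res_eq_zero]
  exact hσ (a : Qb) a.2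

/-- an inertia element maps integral series to integral series with the same reduction -/
theorem smul_intQ {σ : GalQ} (hσ : IsInertiaAt V σ) (y : (modFrac N V).O) :
    ∃ h : arithmeticGalois (modularFunctionFieldFull N) σ • (y : FN N) ∈ (modFrac N V).O,
      (modFrac N V).ρ₀ ⟨arithmeticGalois (modularFunctionFieldFull N) σ • (y : FN N), h⟩ =
        (modFrac N V).ρ₀ y := by
  obtain ⟨s, hs, hsk⟩ := (y.2 : IsIntQ V (residue V) (modularFunctionFieldBar N)
    (modularFunctionFieldFullC (kA V) N) (y : FN N))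
  have h1 : coeffMap V.subtype (coeffMap (resV hσ) s) =
      ((arithmeticGalois (modularFunctionFieldFull N) σ • (y : FN N) : FN N) :
        LaurentSeries Qb) := by
    rw [coe_arithmeticGalois_smul, coeffMap_coeffMap, subtype_comp_resV, ← coeffMap_coeffMap, hs]
  have h2 : coeffMap (residue V) (coeffMap (resV hσ) s) = coeffMap (residue V) s := by
    rw [coeffMap_coeffMap, residue_comp_resV]
  have hmem : IsIntQ V (residue V) (modularFunctionFieldBar N)
      (modularFunctionFieldFullC (kA V) N)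
      (arithmeticGalois (modularFunctionFieldFull N) σ • (y : FN N)) :=
    ⟨coeffMap (resV hσ) s, h1, by rw [h2]; exact hsk⟩
  refine ⟨hmem, ?_⟩
  apply Subtype.ext
  have e1 := coe_redQ V (residue V) (modularFunctionFieldBar N)
    (modularFunctionFieldFullC (kA V) N)
    ⟨arithmeticGalois (modularFunctionFieldFull N) σ • (y : FN N), hmem⟩ h1
  have e2 := coe_redQ V (residue V) (modularFunctionFieldBar N)
    (modularFunctionFieldFullC (kA V) N) y hs
  exact e1.trans (h2.trans e2.symm)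

/-- **`I_red`**: inertia preserves `O` and acts trivially on reductions -/
theorem gr_I_red (hVG : ModVG N V) (g : SemilinearAut Qb (FN N)) (hg : g ∈ inertiaImage V N)
    (f : modO hVG) :
    ∃ h : g • (f : FN N) ∈ modO hVG, modρ hVG ⟨g • (f : FN N), h⟩ = modρ hVG f := by
  obtain ⟨σ, hσ, rfl⟩ := (mem_inertiaImage V).mp hg
  obtain ⟨a, b, hb, hab⟩ := (f.2 : (modFrac N V).IsFrac (f : FN N))
  obtain ⟨ha', hρa⟩ := smul_intQ hσ a
  obtain ⟨hb', hρb⟩ := smul_intQ hσ b
  set γ : SemilinearAut Qb (FN N) := arithmeticGalois (modularFunctionFieldFull N) σ with hγ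
  let a' : (modFrac N V).O := ⟨γ • (a : FN N), ha'⟩
  let b' : (modFrac N V).O := ⟨γ • (b : FN N), hb'⟩
  have hb'' : (modFrac N V).ρ₀ b' ≠ 0 := by
    show (modFrac N V).ρ₀ ⟨γ • (b : FN N), hb'⟩ ≠ 0
    rw [hρb]; exact hb
  have hfrac : (γ • (f : FN N)) * (b' : FN N) = (a' : FN N) := by
    show γ • (f : FN N) * γ • (b : FN N) = γ • (a : FN N)
    rw [← smul_mul', hab]
  have hmem : (modFrac N V).IsFrac (γ • (f : FN N)) := ⟨a', b', hb'', hfrac⟩
  refine ⟨hmem, ?_⟩
  have e1 : (modFrac N V).ρ ⟨γ • (f : FN N), hmem⟩ =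
      (modFrac N V).ρ₀ a' / (modFrac N V).ρ₀ b' :=
    (modFrac N V).ρ_apply ⟨γ • (f : FN N), hmem⟩ hb'' hfrac
  have e2 : (modFrac N V).ρ f = (modFrac N V).ρ₀ a / (modFrac N V).ρ₀ b :=
    (modFrac N V).ρ_apply f hb hab
  have e3 : (modFrac N V).ρ₀ a' = (modFrac N V).ρ₀ a := hρa
  have e4 : (modFrac N V).ρ₀ b' = (modFrac N V).ρ₀ b := hρb
  show (modFrac N V).ρ ⟨γ • (f : FN N), hmem⟩ = (modFrac N V).ρ f
  rw [e1, e2, e3, e4]

/-- **`I_base`** -/
theorem gr_I_base (g : SemilinearAut Qb (FN N)) (hg : g ∈ inertiaImage V N) (a : V) :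
    ∃ h : SemilinearAut.baseAut g (a : Qb) ∈ V,
      residue V ⟨SemilinearAut.baseAut g (a : Qb), h⟩ = residue V a := by
  obtain ⟨σ, hσ, rfl⟩ := (mem_inertiaImage V).mp hg
  have h : σ (a : Qb) ∈ V := inertia_map_mem hσ a.2
  refine ⟨h, ?_⟩
  show residue V ⟨σ (a : Qb), h⟩ = residue V a
  rw [← sub_eq_zero, ← map_sub, gr_res_eq_zero]
  exact hσ (a : Qb) a.2

/-- **`I_lift_const`** (helper439's Teichmüller lifts) -/
theorem gr_I_lift_const (N : ℕ) {ℓ : ℕ} [Fact ℓ.Prime] (hV : V.LiesOverPrime ℓ) (c : kA V) :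
    ∃ a : V, residue V a = c ∧
      ∀ g ∈ inertiaImage V N, SemilinearAut.baseAut g (a : Qb) = (a : Qb) := by
  have : Algebra.IsAlgebraic ℚ Qb := AlgebraicClosure.isAlgebraic ℚ
  obtain ⟨a, ha, hac, hfix⟩ :=
    Fermat.Agent.S19.H439.exists_inertia_fixed_lift (K := Qb) V (ℓ := ℓ) hV c
  refine ⟨⟨a, ha⟩, hac, ?_⟩
  intro g hg
  obtain ⟨σ, hσ, rfl⟩ := (mem_inertiaImage V).mp hg
  exact hfix (σ : Qb →+* Qb) hσ

/-- **`I_fixed_place`**: the cusp `∞` -/
theorem gr_I_fixed_place (N : ℕ) [NeZero N] (V : ValuationSubring Qb) :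
    ∃ P : Place Qb (FN N), ∀ g ∈ inertiaImage V N, g • P = P := by
  refine ⟨Fermat.Agent.S17.H680.JZero.cusp N, fun g hg => ?_⟩
  obtain ⟨σ, -, rfl⟩ := (mem_inertiaImage V).mp hg
  exact Fermat.Agent.S17.H680.JZero.galois_smul_cusp N σ

end InertiaRed

/-! ## `div_red` on all of `O` from the Prelude's `IsPlaceReductionModL` -/

section DivRed

open Fermat.Agent.S37.H940

variable {N : ℕ} [NeZero N] {V : ValuationSubring Qb}

/-- the reduction of divisors of integral series extends to fractions -/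
theorem gr_div_red (hVG : ModVG N V)
    (r : Place Qb (FN N) → Place (kA V) (FNk V N)) (hr : IsPlaceReductionModL V N r)
    (f : modO hVG) (hf : modρ hVG f ≠ 0) (D : Divisor Qb (FN N))
    (hD : ∀ P, D P = P.ord (f : FN N)) (Q : Place (kA V) (FNk V N)) :
    Finsupp.mapDomain r D Q = Q.ord (modρ hVG f) := by
  obtain ⟨a, b, hb, hab⟩ := (f.2 : (modFrac N V).IsFrac (f : FN N))
  have e : modρ hVG f = (modFrac N V).ρ₀ a / (modFrac N V).ρ₀ b :=
    (modFrac N V).ρ_apply f hb hab
  have ha : (modFrac N V).ρ₀ a ≠ 0 := by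
    intro h0
    apply hf
    rw [e, h0, zero_div]
  have hb0 : (b : FN N) ≠ 0 := (modFrac N V).coe_ne_zero hb
  have ha0 : (a : FN N) ≠ 0 := (modFrac N V).coe_ne_zero ha
  have hf0 : (f : FN N) ≠ 0 := by
    intro h0
    rw [h0, zero_mul] at hab
    exact ha0 hab.symm
  -- the series
  obtain ⟨sa, hsa, hsak⟩ := (a.2 : IsIntQ V (residue V) (modularFunctionFieldBar N)
    (modularFunctionFieldFullC (kA V) N) (a : FN N))
  obtain ⟨sb, hsb, hsbk⟩ := (b.2 : IsIntQ V (residue V) (modularFunctionFieldBar N)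
    (modularFunctionFieldFullC (kA V) N) (b : FN N))
  have hya : coeffMap V.subtype sa ∈ modularFunctionFieldBar N := by
    rw [hsa]; exact (a : FN N).2
  have hyb : coeffMap V.subtype sb ∈ modularFunctionFieldBar N := by
    rw [hsb]; exact (b : FN N).2
  have ea : (⟨coeffMap V.subtype sa, hya⟩ : FN N) = (a : FN N) := Subtype.ext hsa
  have eb : (⟨coeffMap V.subtype sb, hyb⟩ : FN N) = (b : FN N) := Subtype.ext hsb
  have eρa : (modFrac N V).ρ₀ a = ⟨coeffMap (residue V) sa, hsak⟩ :=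
    Subtype.ext (coe_redQ V (residue V) (modularFunctionFieldBar N)
      (modularFunctionFieldFullC (kA V) N) a hsa)
  have eρb : (modFrac N V).ρ₀ b = ⟨coeffMap (residue V) sb, hsbk⟩ :=
    Subtype.ext (coe_redQ V (residue V) (modularFunctionFieldBar N)
      (modularFunctionFieldFullC (kA V) N) b hsb)
  have hnea : coeffMap (residue V) sa ≠ 0 := by
    intro h0
    apply ha
    rw [eρa]
    exact Subtype.ext h0
  have hneb : coeffMap (residue V) sb ≠ 0 := by
    intro h0
    apply hb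
    rw [eρb]
    exact Subtype.ext h0
  -- the divisors of `a` and `b`
  have hpd : HasPrincipalDivisors Qb (FN N) :=
    (Fermat.Agent.Lib.RR.H864.ff1_modularFunctionFieldBar N).hpd
  obtain ⟨Da, hDa, -⟩ := hpd.exists_divisor (a : FN N) ha0
  obtain ⟨Db, hDb, -⟩ := hpd.exists_divisor (b : FN N) hb0
  have hsum : D + Db = Da := by
    ext P
    rw [Finsupp.add_apply, hD, hDa, hDb, ← Place.ord_mul P hf0 hb0, hab]
  have ka := hr.2 sa hya hsak hnea Da (fun P => by rw [hDa, ea]) Q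
  have kb := hr.2 sb hyb hsbk hneb Db (fun P => by rw [hDb, eb]) Q
  have hmap : Finsupp.mapDomain r D Q + Finsupp.mapDomain r Db Q = Finsupp.mapDomain r Da Q := by
    rw [← Finsupp.add_apply, ← Finsupp.mapDomain_add, hsum]
  have hmul : modρ hVG f * (modFrac N V).ρ₀ b = (modFrac N V).ρ₀ a := by
    rw [e, div_mul_cancel₀ _ hb]
  have hord : Q.ord (modρ hVG f) + Q.ord ((modFrac N V).ρ₀ b) = Q.ord ((modFrac N V).ρ₀ a) := by
    rw [← Place.ord_mul Q hf hb, hmul]
  rw [← eρa] at ka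
  rw [← eρb] at kb
  rw [ka, kb] at hmap
  linarith

end DivRed

/-! ## The leaves and the assembly -/

section Assembly

/-- the value-group hypothesis, from S28 (core data) and S37/H568 -/
theorem gr_vg (N : ℕ) [NeZero N] {ℓ : ℕ} [Fact ℓ.Prime] (hℓN : ¬ ℓ ∣ N)
    (V : ValuationSubring Qb) (hV : V.LiesOverPrime ℓ) : ModVG N V :=
  Fermat.Agent.S37.H568.valueGroupHyp_modular
    (Fermat.Agent.S18.H516.coreData_residue N hℓN V hV)

/-- **Leaf GR-RED**: a place reduction map in the sense of the Prelude, commuting with inertia.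
(S37 `node_rim` gives the first half; the second is S37's `PlaceRed.inertia`.) -/
def RedLeaf (N : ℕ) (V : ValuationSubring Qb) : Prop :=
  ∃ r : Place Qb (FN N) → Place (kA V) (FNk V N),
    IsPlaceReductionModL V N r ∧
      ∀ σ : GalQ, IsInertiaAt V σ → ∀ P : Place Qb (FN N),
        r (arithmeticGalois (modularFunctionFieldFull N) σ • P) = r P

/-- **Leaf GR-GENUS**: the generic and the special fibre have the same genus. -/
def GenusLeaf (N : ℕ) (V : ValuationSubring Qb) : Prop :=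
  genusFF Qb (FN N) = genusFF (kA V) (FNk V N)

/-- **Leaf GR-ORTH**: the field `orthonormal` of `GoodRed` for `(modO, modρ, inertiaImage)`. -/
def OrthLeaf (N : ℕ) (V : ValuationSubring Qb) (hVG : ModVG N V) : Prop :=
  ∀ D : Divisor Qb (FN N), ∃ (n : ℕ) (b : Fin n → modO hVG),
    LinearIndependent (kA V) (fun i => modρ hVG (b i)) ∧
    (∀ i, ((b i : modO hVG) : FN N) ∈ riemannRochSpace D) ∧
    Submodule.span Qb (Set.range fun i => ((b i : modO hVG) : FN N)) = riemannRochSpace D ∧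
    ((∀ g ∈ inertiaImage V N, g • D = D) →
      ∀ i, ∀ g ∈ inertiaImage V N, g • ((b i : modO hVG) : FN N) = ((b i : modO hVG) : FN N))

/-- **The `GoodRed` datum of `X₀(N)` at `V`**, from the three leaves. -/
def goodRedOfLeaves (N : ℕ) [NeZero N] {ℓ : ℕ} [Fact ℓ.Prime] (hℓN : ¬ ℓ ∣ N)
    (V : ValuationSubring Qb) (hV : V.LiesOverPrime ℓ)
    (r : Place Qb (FN N) → Place (kA V) (FNk V N)) (hr : IsPlaceReductionModL V N r)
    (hrI : ∀ σ : GalQ, IsInertiaAt V σ → ∀ P : Place Qb (FN N),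
        r (arithmeticGalois (modularFunctionFieldFull N) σ • P) = r P)
    (hgen : GenusLeaf N V) (horth : OrthLeaf N V (gr_vg N hℓN V hV)) :
    Fermat.Agent.A3.H799.GoodRed Qb (FN N) (kA V) (FNk V N) where
  V := V
  O := modO (gr_vg N hℓN V hV)
  res := residue V
  red := modρ (gr_vg N hℓN V hV)
  r := r
  I := inertiaImage V N
  res_surjective := residue_surjective
  res_eq_zero := gr_res_eq_zero
  algebraMap_mem := gr_algebraMap_mem (gr_vg N hℓN V hV)
  red_algebraMap := gr_red_algebraMap (gr_vg N hℓN V hV)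
  red_surjective := Fermat.Agent.S37.Red.modρ_surjective (gr_vg N hℓN V hV)
  gauss := gr_gauss (gr_vg N hℓN V hV)
  div_red := fun f hf D hD Q => gr_div_red (gr_vg N hℓN V hV) r hr f hf D hD Q
  ff1 := Fermat.Agent.Lib.RR.H864.ff1_modularFunctionFieldBar N
  ff1k := Fermat.Agent.S18.H383.ff1_residue N ℓ Fact.out hℓN V hV
  genus_eq := hgen
  orthonormal := horth
  I_base := gr_I_base
  I_red := gr_I_red (gr_vg N hℓN V hV)
  I_place := fun g hg P => by
    obtain ⟨σ, hσ, rfl⟩ := (mem_inertiaImage V).mp hg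
    exact hrI σ hσ P
  I_lift_const := gr_I_lift_const N hV
  I_fixed_place := gr_I_fixed_place N V

/-- **GR assembly**: `GrStatement` from the three leaves, for ONE valuation ring above each
prime `ℓ ∤ N` at good levels. -/
theorem grStatement_of_leaves
    (h : ∀ (N : ℕ) [NeZero N] (ℓ : ℕ) [Fact ℓ.Prime] (hℓN : ¬ ℓ ∣ N), GoodLevel N ℓ →
      ∃ (V : ValuationSubring Qb) (hV : V.LiesOverPrime ℓ),
        RedLeaf N V ∧ GenusLeaf N V ∧ OrthLeaf N V (gr_vg N hℓN V hV)) :
    Fermat.Agent.S19.H979.GrStatement := by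
  intro N _ ℓ _ hℓN hgood
  obtain ⟨V, hV, ⟨r, hr, hrI⟩, hgen, horth⟩ := h N ℓ hℓN hgood
  refine ⟨kA V, inferInstance, Fermat.Agent.S18.H9.resAlgClosed Qb V, FNk V N, inferInstance,
    inferInstance, goodRedOfLeaves N hℓN V hV r hr hrI hgen horth, hV, ?_⟩
  intro σ hσ
  exact arithmeticGalois_mem_inertiaImage V N hσ

/-- the same, with the leaves for EVERY valuation ring above `ℓ` -/
theorem grStatement_of_leaves_forall
    (hred : ∀ (N : ℕ) [NeZero N] (ℓ : ℕ) [Fact ℓ.Prime], ¬ ℓ ∣ N → GoodLevel N ℓ →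
      ∀ V : ValuationSubring Qb, V.LiesOverPrime ℓ → RedLeaf N V)
    (hgen : ∀ (N : ℕ) [NeZero N] (ℓ : ℕ) [Fact ℓ.Prime], ¬ ℓ ∣ N → GoodLevel N ℓ →
      ∀ V : ValuationSubring Qb, V.LiesOverPrime ℓ → GenusLeaf N V)
    (horth : ∀ (N : ℕ) [NeZero N] (ℓ : ℕ) [Fact ℓ.Prime] (hℓN : ¬ ℓ ∣ N), GoodLevel N ℓ →
      ∀ (V : ValuationSubring Qb) (hV : V.LiesOverPrime ℓ), OrthLeaf N V (gr_vg N hℓN V hV)) :
    Fermat.Agent.S19.H979.GrStatement := by
  refine grStatement_of_leaves fun N _ ℓ _ hℓN hgood => ?_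
  obtain ⟨V, hV⟩ := Fermat.Agent.S54.exists_valuationSubring_liesOver ℓ Fact.out
  exact ⟨V, hV, hred N ℓ hℓN hgood V hV, hgen N ℓ hℓN hgood V hV, horth N ℓ hℓN hgood V hV⟩

end Assembly

end Fermat.Agent.A3.H739
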